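import Mathlib
import Fermat.Prelude.Def_ModularCurve_LaurentCoeff

/-!
# P5 [DESC] — constant-field base change for Laurent-series function fields (helper36)

`ι : K₀ → K₁` fields, `F₀ ⊆ ℚ((q))` an intermediate field,
`A = laurentBaseChange K₀ F₀`, `B = laurentBaseChange K₁ F₀`.

* `linearIndependent_coeffMap` (default `HahnSeries` module structure),
  `linearIndependent_coeffMap_alg` (module structure of `Algebra K (LaurentSeries K)`),
  `linearIndependent_baseMap` (families in `A`) — (LD) coefficientwise base change preserves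
  linear independence;
* `baseMap ι F₀ : A →+* B` — the coefficientwise map;
* `mem_laurentBaseChange_of_coeffMap_mem` — (INT) `B ∩ ι(K₀((q))) = ι(A)`;
* `transcendental_baseMap`.
-/

set_option autoImplicit false

noncomputable section

namespace Fermat.Agent.P5.Desc

open ModularCurve IntermediateField

section LD

variable {K₀ K₁ : Type*} [Field K₀] [Field K₁]

theorem coeffMap_injective (ι : K₀ →+* K₁) : Function.Injective (coeffMap ι) := by
  intro x y h
  ext k
  have := congrArg (fun z => z.coeff k) h
  simp only [coeffMap_coeff] at this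
  exact ι.injective this

theorem coeffMap_algebraMap' (ι : K₀ →+* K₁) (c : K₀) :
    coeffMap ι (algebraMap K₀ (LaurentSeries K₀) c) = algebraMap K₁ (LaurentSeries K₁) (ι c) := by
  rw [algebraMap_laurentSeries_eq_single, algebraMap_laurentSeries_eq_single, coeffMap_single]

theorem coeff_algebraMap_mul (c : K₁) (x : LaurentSeries K₁) (k : ℤ) :
    (algebraMap K₁ (LaurentSeries K₁) c * x).coeff k = c * x.coeff k := by
  rw [algebraMap_laurentSeries_eq_single]
  simp

/-- (LD), relation form (no scalar-multiplication instance involved). -/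
theorem ld_core (ι : K₀ →+* K₁) {I : Type*} (s : Finset I) (v : I → LaurentSeries K₀)
    (c : I → K₁)
    (hc : ∑ i ∈ s, algebraMap K₁ (LaurentSeries K₁) (c i) * coeffMap ι (v i) = 0)
    (hv : ∀ d : I → K₀, ∑ i ∈ s, algebraMap K₀ (LaurentSeries K₀) (d i) * v i = 0 →
      ∀ i ∈ s, d i = 0) :
    ∀ i ∈ s, c i = 0 := by
  classical
  let _ : Algebra K₀ K₁ := ι.toAlgebra
  intro i hi
  -- it suffices to test against every `K₀`-linear functional
  rw [← Module.forall_dual_apply_eq_zero_iff K₀ (c i)]
  intro ℓ
  refine hv (fun i => ℓ (c i)) ?_ i hi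
  ext k
  have hk := congrArg (fun z => z.coeff k) hc
  simp only [HahnSeries.coeff_sum, coeff_algebraMap_mul, coeffMap_coeff,
    HahnSeries.coeff_zero] at hk ⊢
  have h2 := congrArg ℓ hk
  rw [map_sum, map_zero] at h2
  rw [← h2]
  refine Finset.sum_congr rfl fun j _ => ?_
  have : c j * ι ((v j).coeff k) = (v j).coeff k • c j := by
    rw [Algebra.smul_def, mul_comm]; rfl
  rw [this, map_smul, smul_eq_mul, mul_comm]

theorem algebraMap_mul_eq_smul (c : K₁) (x : LaurentSeries K₁) :
    algebraMap K₁ (LaurentSeries K₁) c * x = c • x := by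
  ext k
  rw [coeff_algebraMap_mul]
  simp

/-- (LD) A `K₀`-linearly independent family of Laurent series stays linearly independent
over `K₁` after coefficientwise base change (DEFAULT module structures on `LaurentSeries`,
i.e. the coefficientwise scalar multiplication of `HahnSeries`). -/
theorem linearIndependent_coeffMap (ι : K₀ →+* K₁) {I : Type*} (v : I → LaurentSeries K₀)
    (hv : LinearIndependent K₀ v) :
    LinearIndependent K₁ (fun i => coeffMap ι (v i)) := by
  rw [linearIndependent_iff'] at hv ⊢
  intro s c hc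
  refine ld_core ι s v c ?_ ?_
  · rw [← hc]
    exact Finset.sum_congr rfl fun i _ => algebraMap_mul_eq_smul _ _
  · intro d hd
    refine hv s d ?_
    rw [← hd]
    exact Finset.sum_congr rfl fun i _ => (algebraMap_mul_eq_smul _ _).symm

end LD

attribute [local instance 2000] Algebra.toModule Algebra.toSMul

section LD2

variable {K₀ K₁ : Type*} [Field K₀] [Field K₁]

theorem coeffMap_smul (ι : K₀ →+* K₁) (c : K₀) (x : LaurentSeries K₀) :
    coeffMap ι (c • x) = ι c • coeffMap ι x := by
  rw [Algebra.smul_def, Algebra.smul_def, map_mul, coeffMap_algebraMap']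

/-- (LD) A `K₀`-linearly independent family of Laurent series stays linearly independent
over `K₁` after coefficientwise base change (module structures: the ones coming from the
algebra structures `Algebra K (LaurentSeries K)`). -/
theorem linearIndependent_coeffMap_alg (ι : K₀ →+* K₁) {I : Type*} (v : I → LaurentSeries K₀)
    (hv : LinearIndependent K₀ v) :
    LinearIndependent K₁ (fun i => coeffMap ι (v i)) := by
  rw [linearIndependent_iff'] at hv ⊢
  intro s c hc
  refine ld_core ι s v c ?_ ?_
  · rw [← hc]
    exact Finset.sum_congr rfl fun i _ => (Algebra.smul_def _ _).symm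
  · intro d hd
    refine hv s d ?_
    rw [← hd]
    exact Finset.sum_congr rfl fun i _ => Algebra.smul_def _ _

end LD2

section BaseMap

variable {K₀ K₁ : Type*} [Field K₀] [Field K₁] [Algebra ℚ K₀] [Algebra ℚ K₁]

theorem coeffMap_coeffEmb' (ι : K₀ →+* K₁) (z : LaurentSeries ℚ) :
    coeffMap ι (coeffEmb K₀ z) = coeffEmb K₁ z := by
  rw [coeffEmb, coeffEmb, coeffMap_coeffMap]
  exact coeffMap_congr (RingHom.ext_rat _ _) z

variable (ι : K₀ →+* K₁) (F₀ : IntermediateField ℚ (LaurentSeries ℚ))

/-- (B1) the coefficientwise map sends `laurentBaseChange K₀ F₀` into `laurentBaseChange K₁ F₀`. -/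
theorem coeffMap_mem_laurentBaseChange' {x : LaurentSeries K₀}
    (hx : x ∈ laurentBaseChange K₀ F₀) : coeffMap ι x ∈ laurentBaseChange K₁ F₀ := by
  rw [mem_laurentBaseChange_iff] at hx
  induction hx using Subfield.closure_induction with
  | mem y hy =>
      rcases hy with ⟨a, rfl⟩ | ⟨z, hz, rfl⟩
      · rw [coeffMap_algebraMap']
        exact (laurentBaseChange K₁ F₀).algebraMap_mem _
      · rw [coeffMap_coeffEmb']
        exact coeffEmb_mem_laurentBaseChange K₁ hz
  | one => simp
  | add _ _ _ _ hx hy => simpa using add_mem hx hy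
  | neg _ _ hx => simpa using neg_mem hx
  | inv _ _ hx => simpa using inv_mem hx
  | mul _ _ _ _ hx hy => simpa using mul_mem hx hy

/-- The coefficientwise base-change map `A = laurentBaseChange K₀ F₀ → B = laurentBaseChange K₁ F₀`. -/
def baseMap : laurentBaseChange K₀ F₀ →+* laurentBaseChange K₁ F₀ where
  toFun x := ⟨coeffMap ι (x : LaurentSeries K₀), coeffMap_mem_laurentBaseChange' ι F₀ x.2⟩
  map_one' := Subtype.ext (map_one (coeffMap ι))
  map_mul' _ _ := Subtype.ext (map_mul (coeffMap ι) _ _)
  map_zero' := Subtype.ext (map_zero (coeffMap ι))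
  map_add' _ _ := Subtype.ext (map_add (coeffMap ι) _ _)

@[simp]
theorem coe_baseMap (x : laurentBaseChange K₀ F₀) :
    (baseMap ι F₀ x : LaurentSeries K₁) = coeffMap ι (x : LaurentSeries K₀) := rfl

theorem baseMap_algebraMap (c : K₀) :
    baseMap ι F₀ (algebraMap K₀ (laurentBaseChange K₀ F₀) c)
      = algebraMap K₁ (laurentBaseChange K₁ F₀) (ι c) :=
  Subtype.ext (coeffMap_algebraMap' ι c)

theorem baseMap_injective : Function.Injective (baseMap ι F₀) :=
  (baseMap ι F₀).injective

theorem coeff_baseMap (x : laurentBaseChange K₀ F₀) (k : ℤ) :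
    (baseMap ι F₀ x : LaurentSeries K₁).coeff k = ι ((x : LaurentSeries K₀).coeff k) := rfl

/-- `hconst` for the place-extension leaf: an element of `A` whose image is a constant of `B`
is a constant of `A`. -/
theorem mem_range_algebraMap_of_baseMap_mem (x : laurentBaseChange K₀ F₀)
    (h : baseMap ι F₀ x ∈ Set.range (algebraMap K₁ (laurentBaseChange K₁ F₀))) :
    x ∈ Set.range (algebraMap K₀ (laurentBaseChange K₀ F₀)) := by
  obtain ⟨c, hc⟩ := h
  refine ⟨(x : LaurentSeries K₀).coeff 0, Subtype.ext ?_⟩
  have hc' : algebraMap K₁ (LaurentSeries K₁) c = coeffMap ι (x : LaurentSeries K₀) :=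
    congrArg Subtype.val hc
  rw [algebraMap_laurentSeries_eq_single] at hc'
  show algebraMap K₀ (LaurentSeries K₀) _ = (x : LaurentSeries K₀)
  rw [algebraMap_laurentSeries_eq_single]
  ext k
  have hk := congrArg (fun z => z.coeff k) hc'
  simp only [coeffMap_coeff] at hk
  rcases eq_or_ne k 0 with rfl | hk0
  · simp
  · rw [HahnSeries.coeff_single_of_ne hk0] at hk ⊢
    exact ((map_eq_zero ι).mp hk.symm).symm

/-- (INT) `B ∩ ι(K₀((q))) = ι(A)`: a Laurent series over `K₀` whose coefficientwise image lies
in `laurentBaseChange K₁ F₀` lies in `laurentBaseChange K₀ F₀`. -/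
theorem mem_laurentBaseChange_of_coeffMap_mem (g : LaurentSeries K₀)
    (hg : coeffMap ι g ∈ laurentBaseChange K₁ F₀) : g ∈ laurentBaseChange K₀ F₀ := by
  classical
  by_contra hgA
  have hg0 : g ≠ 0 := fun h => hgA (h ▸ zero_mem _)
  set A := laurentBaseChange K₀ F₀ with hA
  set Φ := coeffMap ι with hΦ
  have hfree : Module.Free K₀ A := Module.Free.of_divisionRing K₀ _
  let b := Module.Free.chooseBasis K₀ A
  let v' : Module.Free.ChooseBasisIndex K₀ A → LaurentSeries K₀ := fun j => (b j : LaurentSeries K₀)
  let v : Module.Free.ChooseBasisIndex K₀ A → LaurentSeries K₀ := fun j => (b j : LaurentSeries K₀) * g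
  -- the `K₀`-span of `v'` is `A`
  have hspan' : ∀ x : LaurentSeries K₀, x ∈ Submodule.span K₀ (Set.range v') ↔ x ∈ A := by
    intro x
    have h1 : Set.range v' = A.val.toLinearMap '' Set.range b := by
      rw [← Set.range_comp]; rfl
    rw [h1, Submodule.span_image, b.span_eq]
    constructor
    · rintro ⟨y, -, rfl⟩; exact y.2
    · intro hx; exact ⟨⟨x, hx⟩, trivial, rfl⟩
  have hspan : ∀ x : LaurentSeries K₀, x ∈ Submodule.span K₀ (Set.range v) →
      ∃ a ∈ A, x = a * g := by
    intro x hx
    have h1 : Set.range v = LinearMap.mulRight K₀ g '' Set.range v' := by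
      rw [← Set.range_comp]; rfl
    rw [h1, Submodule.span_image] at hx
    obtain ⟨a, ha, rfl⟩ := hx
    exact ⟨a, (hspan' a).mp ha, rfl⟩
  have hv' : LinearIndependent K₀ v' :=
    b.linearIndependent.map' A.val.toLinearMap
      (LinearMap.ker_eq_bot.mpr Subtype.val_injective)
  have hv : LinearIndependent K₀ v :=
    hv'.map' (LinearMap.mulRight K₀ g)
      (LinearMap.ker_eq_bot.mpr (mul_left_injective₀ hg0))
  have hdisj : Disjoint (Submodule.span K₀ (Set.range v)) (Submodule.span K₀ (Set.range v')) := by
    rw [Submodule.disjoint_def]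
    intro x hx hx'
    obtain ⟨a, ha, rfl⟩ := hspan x hx
    rw [hspan'] at hx'
    by_cases ha0 : a = 0
    · rw [ha0, zero_mul]
    · exfalso
      apply hgA
      have : g = a⁻¹ * (a * g) := by field_simp
      rw [this]
      exact mul_mem (inv_mem ha) hx'
  have hw : LinearIndependent K₀ (Sum.elim v v') := hv.sum_type hv' hdisj
  have hW := linearIndependent_coeffMap_alg ι _ hw
  rw [linearIndependent_sum] at hW
  have hD := hW.2.2
  -- the `K₁`-span `T` of the `Φ (b j)`
  set T := Submodule.span K₁ (Set.range fun j => Φ (v' j)) with hT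
  have hΦA : ∀ a ∈ A, Φ a ∈ T := by
    intro a ha
    rw [← hspan'] at ha
    induction ha using Submodule.span_induction with
    | mem x hx =>
        obtain ⟨j, rfl⟩ := hx
        exact Submodule.subset_span ⟨j, rfl⟩
    | zero => rw [map_zero]; exact zero_mem _
    | add x y _ _ hx hy => rw [map_add]; exact add_mem hx hy
    | smul c x _ hx => rw [hΦ, coeffMap_smul]; exact Submodule.smul_mem _ _ hx
  have hTmul : ∀ x ∈ T, ∀ y ∈ T, x * y ∈ T := by
    intro x hx y hy
    induction hx using Submodule.span_induction with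
    | mem x hx =>
        obtain ⟨j, rfl⟩ := hx
        induction hy using Submodule.span_induction with
        | mem y hy =>
            obtain ⟨j', rfl⟩ := hy
            show Φ (v' j) * Φ (v' j') ∈ T
            rw [← map_mul]
            exact hΦA _ (mul_mem (b j).2 (b j').2)
        | zero => rw [mul_zero]; exact zero_mem _
        | add x y _ _ hx hy => rw [mul_add]; exact add_mem hx hy
        | smul c x _ hx => rw [mul_smul_comm]; exact Submodule.smul_mem _ _ hx
    | zero => rw [zero_mul]; exact zero_mem _
    | add x y _ _ hx hy => rw [add_mul]; exact add_mem hx hy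
    | smul c x _ hx => rw [smul_mul_assoc]; exact Submodule.smul_mem _ _ hx
  have hadj : ∀ x ∈ Algebra.adjoin K₁ (⇑(coeffEmb K₁) '' (F₀ : Set (LaurentSeries ℚ))), x ∈ T := by
    intro x hx
    induction hx using Algebra.adjoin_induction with
    | mem x hx =>
        obtain ⟨z, hz, rfl⟩ := hx
        rw [← coeffMap_coeffEmb' ι z]
        exact hΦA _ (coeffEmb_mem_laurentBaseChange K₀ hz)
    | algebraMap r =>
        rw [Algebra.algebraMap_eq_smul_one]
        refine Submodule.smul_mem _ _ ?_
        rw [← map_one Φ]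
        exact hΦA _ (one_mem _)
    | add x y _ _ hx hy => exact add_mem hx hy
    | mul x y _ _ hx hy => exact hTmul x hx y hy
  obtain ⟨r, hr, s, hs, hrs⟩ := IntermediateField.mem_adjoin_iff_div.mp hg
  have hs0 : s ≠ 0 := by
    rintro rfl
    rw [div_zero] at hrs
    exact hg0 ((map_eq_zero_iff _ (coeffMap_injective ι)).mp hrs)
  have hrT : r ∈ T := hadj r hr
  have hsT : s ∈ T := hadj s hs
  have hr2 : r = s * Φ g := by
    rw [show coeffMap ι g = Φ g from rfl, hrs]; field_simp
  have hr3 : r ∈ Submodule.span K₁ (Set.range (((fun i => coeffMap ι (Sum.elim v v' i))) ∘ Sum.inl)) := by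
    rw [hr2]
    have h1 : Set.range (((fun i => coeffMap ι (Sum.elim v v' i))) ∘ Sum.inl)
        = LinearMap.mulRight K₁ (Φ g) '' Set.range (fun j => Φ (v' j)) := by
      rw [← Set.range_comp]
      congr 1
      funext j
      simp only [Function.comp_apply, Sum.elim_inl, LinearMap.mulRight_apply]
      exact map_mul _ _ _
    rw [h1, Submodule.span_image]
    exact ⟨s, hsT, rfl⟩
  have hr0 : r = 0 := by
    rw [Submodule.disjoint_def] at hD
    exact hD r hr3 hrT
  rw [hr0] at hr2
  rcases mul_eq_zero.mp hr2.symm with h | h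
  · exact hs0 h
  · exact hg0 ((map_eq_zero_iff _ (coeffMap_injective ι)).mp h)

/-- (LD) for families in `A = laurentBaseChange K₀ F₀`. -/
theorem linearIndependent_baseMap {I : Type*} (v : I → laurentBaseChange K₀ F₀)
    (hv : LinearIndependent K₀ v) :
    LinearIndependent K₁ (fun i => baseMap ι F₀ (v i)) := by
  have h1 : LinearIndependent K₀ (fun i => ((v i : laurentBaseChange K₀ F₀) : LaurentSeries K₀)) :=
    hv.map' (laurentBaseChange K₀ F₀).val.toLinearMap
      (LinearMap.ker_eq_bot.mpr Subtype.val_injective)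
  have h2 := linearIndependent_coeffMap_alg ι _ h1
  exact LinearIndependent.of_comp (laurentBaseChange K₁ F₀).val.toLinearMap h2

/-- The image of a transcendental element is transcendental. -/
theorem transcendental_baseMap (x₀ : laurentBaseChange K₀ F₀) (hx₀ : Transcendental K₀ x₀) :
    Transcendental K₁ (baseMap ι F₀ x₀) := by
  classical
  rw [transcendental_iff] at hx₀ ⊢
  have hli : LinearIndependent K₀ (fun m : ℕ => ((x₀ : LaurentSeries K₀)) ^ m) := by
    rw [linearIndependent_iff']
    intro s c hc i hi
    have h1 := hx₀ (∑ m ∈ s, Polynomial.monomial m (c m)) (by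
      apply Subtype.ext
      simp only [map_sum, Polynomial.aeval_monomial, ZeroMemClass.coe_zero]
      rw [← hc]
      simp [Algebra.smul_def])
    have h2 := congrArg (fun p => p.coeff i) h1
    simp only [Polynomial.finsetSum_coeff, Polynomial.coeff_monomial, Polynomial.coeff_zero] at h2
    rw [Finset.sum_ite_eq' s i] at h2
    simpa [hi] using h2
  have hli' := linearIndependent_coeffMap_alg ι _ hli
  rw [linearIndependent_iff'] at hli'
  intro p hp
  have h3 : ((Polynomial.aeval (baseMap ι F₀ x₀) p : laurentBaseChange K₁ F₀) :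
      LaurentSeries K₁) = 0 := by rw [hp]; rfl
  rw [Polynomial.aeval_eq_sum_range] at h3
  have h4 : ∑ m ∈ Finset.range (p.natDegree + 1),
      p.coeff m • coeffMap ι ((x₀ : LaurentSeries K₀) ^ m) = 0 := by
    rw [← h3, AddSubmonoidClass.coe_finsetSum]
    refine Finset.sum_congr rfl fun m _ => ?_
    rw [map_pow]
    rfl
  ext m
  by_cases hm : m ∈ Finset.range (p.natDegree + 1)
  · simpa using hli' _ (fun m => p.coeff m) h4 m hm
  · rw [Finset.mem_range, not_lt] at hm
    simpa using Polynomial.coeff_eq_zero_of_natDegree_lt (Nat.lt_of_succ_le hm)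

end BaseMap

end Fermat.Agent.P5.Desc
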