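import Mathlib
import Fermat.Prelude.Def_AlgebraicCurve_BaseChangeGalois
import Fermat.Prelude.Def_ModularCurve_ArithmeticGalois
import Fermat.Agent.P5.Desc.BaseChange

/-!
# P5 [DESC] — block contract (helper36, block owner)

Step 4b of Directive 6: the descent `ℂ → Q̄`.

GENERIC SETTING.  `K₀ K₁` fields with `[Algebra ℚ K₀] [Algebra ℚ K₁]` (for P5: `K₀ = Q̄`,
`K₁ = ℂ`), `ι : K₀ →+* K₁`, `F₀ : IntermediateField ℚ (LaurentSeries ℚ)` (for P5:
`modularFunctionFieldFull N`), `A := laurentBaseChange K₀ F₀` (`= F_N`),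
`B := laurentBaseChange K₁ F₀` (`= K_C`), `baseMap ι F₀ : A →+* B` the coefficientwise map
(`P5/Desc/BaseChange.lean`).

BLOCK EXPORT: `DescStmt ι F₀ n` — every `f ∈ B^×` whose divisor is divisible by `n` is
`c · ι(f₀) · h ^ n` with `c ∈ K₁^×`, `h ∈ B^×`, `f₀ ∈ A^×` and `div_A(f₀) ∈ n · Div(A)`.

CONTRACTS (each a `def … : Prop`; owner in brackets):
* `DegStmt ι F₀`      [OPEN sub-leaf DESC.DEG]  `[B : K₁(ι x₀)] = [A : K₀(x₀)]`;
* `FixedStmt ι`       [helper89, Lib/AutTranscendental]  fixed points of finite-index subgroups of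
                      `Aut(K₁/ι K₀)` lie in `ι K₀`;
* `RedStmt K F P`     [helper68, Lib/ReducedDivisor]  existence + uniqueness of the reduced
                      representative relative to a place `P`;
* `ExtStmt ι F₀`      [helper68, Lib/PlaceBaseChange]  every place of `A` extends to `B` with `e = 1`;
* `DescCoreStmt`, `DescStmt`  [helper36, P5/Desc/Spine.lean]  the block export.

External input of the block (NOT a contract of this block): `Finite (Pic0.torsion K₁ B n)`
(= "κ over ℂ is injective", [KAPPA]/[MODFUN]).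
-/

set_option autoImplicit false

noncomputable section

namespace Fermat.Agent.P5.Desc

open AlgebraicCurve ModularCurve IntermediateField

/-! ### Generic function-field contracts -/

section Generic

variable {K F : Type*} [Field K] [Field F] [Algebra K F]

/-- `E` is the reduced representative of `D` relative to the place `P`, with pole order `m`:
`E ≥ 0`, `E - m·P ∼ D`, and `m` is minimal.  (Same text as helper68's
`Lib.ReducedDivisor.IsReduced`.) -/
def IsRed (P : Place K F) (D : Divisor K F) (m : ℕ) (E : Divisor K F) : Prop :=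
  0 ≤ E ∧ E - Finsupp.single P (m : ℤ) - D ∈ Divisor.principal (K := K) (F := F) ∧
    ∀ (m' : ℕ) (E' : Divisor K F), 0 ≤ E' →
      E' - Finsupp.single P (m' : ℤ) - D ∈ Divisor.principal (K := K) (F := F) → m ≤ m'

variable (K F) in
/-- [D4] Existence and uniqueness of the reduced representative of a degree-zero divisor
relative to `P`.  TRUE for `K` algebraically closed and `F / K(x)` finite separable
(Riemann's inequality: at the minimal `m`, `dim L(D + m·P) = 1`).
(v2, 12:20Z: the uniqueness clause carries `degree D = 0` — without it the clause is false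
for divisors of large positive degree.) -/
def RedStmt (P : Place K F) : Prop :=
  (∀ D : Divisor K F, Divisor.degree D = 0 → ∃ (m : ℕ) (E : Divisor K F), IsRed P D m E) ∧
  (∀ (D : Divisor K F), Divisor.degree D = 0 → ∀ (m m' : ℕ) (E E' : Divisor K F),
    IsRed P D m E → IsRed P D m' E' → m = m' ∧ E = E')

end Generic

/-! ### Base-change contracts -/

section BaseChange

variable {K₀ K₁ : Type*} [Field K₀] [Field K₁] [Algebra ℚ K₀] [Algebra ℚ K₁]

/-- [D1] A point of `K₁` fixed by a finite-index subgroup of `Aut(K₁ / ι K₀)` lies in `ι K₀`.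
TRUE for `K₀` algebraically closed of characteristic zero and `K₁` algebraically closed. -/
def FixedStmt (ι : K₀ →+* K₁) : Prop :=
  letI : Algebra K₀ K₁ := ι.toAlgebra
  ∀ (H : Subgroup (K₁ ≃ₐ[K₀] K₁)), H.FiniteIndex →
    ∀ t : K₁, (∀ σ ∈ H, σ t = t) → t ∈ Set.range ι

variable (ι : K₀ →+* K₁) (F₀ : IntermediateField ℚ (LaurentSeries ℚ))

/-- [DESC.DEG] The degree over the rational subfield is preserved by constant-field base change.
TRUE for all `ι`, `F₀`. -/
def DegStmt : Prop :=
  ∀ x₀ : laurentBaseChange K₀ F₀, Transcendental K₀ x₀ →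
    FiniteDimensional K₀⟮x₀⟯ (laurentBaseChange K₀ F₀) →
    FiniteDimensional K₁⟮baseMap ι F₀ x₀⟯ (laurentBaseChange K₁ F₀) ∧
    Module.finrank K₁⟮baseMap ι F₀ x₀⟯ (laurentBaseChange K₁ F₀)
      = Module.finrank K₀⟮x₀⟯ (laurentBaseChange K₀ F₀)

/-- [D3b] Every place of `A` has an extension to `B` with ramification index one.
TRUE for `K₀`, `K₁` algebraically closed of characteristic zero and `A` a function field. -/
def ExtStmt : Prop :=
  ∀ p : Place K₀ (laurentBaseChange K₀ F₀), ∃ P : Place K₁ (laurentBaseChange K₁ F₀),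
    ∀ f : laurentBaseChange K₀ F₀, P.ord (baseMap ι F₀ f) = p.ord f

/-- The core of the descent: `f = c · ι(f₀) · h ^ n`. -/
def DescCoreStmt (n : ℕ) : Prop :=
  ∀ f : laurentBaseChange K₁ F₀, f ≠ 0 →
    (∀ P : Place K₁ (laurentBaseChange K₁ F₀), (n : ℤ) ∣ P.ord f) →
    ∃ (c : K₁) (f₀ : laurentBaseChange K₀ F₀) (h : laurentBaseChange K₁ F₀),
      c ≠ 0 ∧ f₀ ≠ 0 ∧ h ≠ 0 ∧
      f = algebraMap K₁ (laurentBaseChange K₁ F₀) c * baseMap ι F₀ f₀ * h ^ n

/-- **The block export of [DESC].**  Every `f ∈ B^×` whose divisor is divisible by `n` is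
`c · ι(f₀) · h ^ n` with `f₀ ∈ A^×` whose divisor (over `K₀`) is divisible by `n`. -/
def DescStmt (n : ℕ) : Prop :=
  ∀ f : laurentBaseChange K₁ F₀, f ≠ 0 →
    (∀ P : Place K₁ (laurentBaseChange K₁ F₀), (n : ℤ) ∣ P.ord f) →
    ∃ (c : K₁) (f₀ : laurentBaseChange K₀ F₀) (h : laurentBaseChange K₁ F₀),
      c ≠ 0 ∧ f₀ ≠ 0 ∧ h ≠ 0 ∧
      f = algebraMap K₁ (laurentBaseChange K₁ F₀) c * baseMap ι F₀ f₀ * h ^ n ∧
      ∀ p : Place K₀ (laurentBaseChange K₀ F₀), (n : ℤ) ∣ p.ord f₀

/-- The shape of the spine theorem (`P5/Desc/Spine.lean` proves `SpineStmt ι F₀`): the block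
export follows from the contracts and the external input `Finite (Pic0.torsion K₁ B n)`. -/
def SpineStmt : Prop :=
  IsAlgClosed K₀ → IsAlgClosed K₁ →
  ∀ x₀ : laurentBaseChange K₀ F₀, Transcendental K₀ x₀ →
    FiniteDimensional K₀⟮x₀⟯ (laurentBaseChange K₀ F₀) →
    DegStmt ι F₀ → FixedStmt ι → ExtStmt ι F₀ →
    (∀ P : Place K₁ (laurentBaseChange K₁ F₀), RedStmt K₁ (laurentBaseChange K₁ F₀) P) →
    ∀ n : ℕ, n ≠ 0 → Finite (Pic0.torsion K₁ (laurentBaseChange K₁ F₀) n) →
      DescStmt ι F₀ n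

end BaseChange

end Fermat.Agent.P5.Desc
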