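/-
P5 [DESC.DEG] (helper31): `DegStmt ι F₀` of `P5/Desc/Plan.lean`, verbatim and unconditional —
the degree over the rational subfield is preserved by constant-field base change
`laurentBaseChange K₀ F₀ → laurentBaseChange K₁ F₀`.
-/
import Fermat.Agent.P5.Desc.Plan
import Fermat.Agent.Lib.LaurentBaseChangeDegree

set_option autoImplicit false

namespace Fermat.Agent.P5.Desc.Deg

open ModularCurve IntermediateField

variable {K₀ K₁ : Type*} [Field K₀] [Field K₁] [Algebra ℚ K₀] [Algebra ℚ K₁]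

/-- **[DESC.DEG]**, verbatim: `DegStmt ι F₀` holds for all `ι`, `F₀`. -/
theorem degStmt (ι : K₀ →+* K₁) (F₀ : IntermediateField ℚ (LaurentSeries ℚ)) :
    Fermat.Agent.P5.Desc.DegStmt ι F₀ := by
  intro x₀ hx hfin
  have h := Fermat.Agent.Lib.LaurentBaseChangeDegree.degree_eq
    (Fermat.Agent.P5.Desc.baseMap ι F₀) (fun a => Fermat.Agent.P5.Desc.coe_baseMap ι F₀ a) hx
  exact ⟨h.2.1, h.2.2⟩

/-- The full package at `baseMap ι F₀ x₀`: transcendence, finiteness and equality of degrees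
(the fields `trans₁`, `finrank_eq` of `Lib/PlaceBaseChange.Setup`). -/
theorem degree_package (ι : K₀ →+* K₁) (F₀ : IntermediateField ℚ (LaurentSeries ℚ))
    {x₀ : laurentBaseChange K₀ F₀} (hx : Transcendental K₀ x₀)
    [FiniteDimensional K₀⟮x₀⟯ (laurentBaseChange K₀ F₀)] :
    Transcendental K₁ (Fermat.Agent.P5.Desc.baseMap ι F₀ x₀) ∧
      FiniteDimensional K₁⟮Fermat.Agent.P5.Desc.baseMap ι F₀ x₀⟯ (laurentBaseChange K₁ F₀) ∧
      Module.finrank K₁⟮Fermat.Agent.P5.Desc.baseMap ι F₀ x₀⟯ (laurentBaseChange K₁ F₀) =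
        Module.finrank K₀⟮x₀⟯ (laurentBaseChange K₀ F₀) :=
  Fermat.Agent.Lib.LaurentBaseChangeDegree.degree_eq
    (Fermat.Agent.P5.Desc.baseMap ι F₀) (fun a => Fermat.Agent.P5.Desc.coe_baseMap ι F₀ a) hx

end Fermat.Agent.P5.Desc.Deg
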