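import Mathlib
import Fermat.Prelude.Def_AlgebraicCurve_BaseChangeGalois
import Fermat.Prelude.Def_ModularCurve_ArithmeticGalois
import Fermat.Agent.Lib.FFPoles
import Fermat.Agent.P5.Desc.BaseChange

/-!
# P5 [DESC] — the cusp place of `laurentBaseChange L F₀` (helper36)

`B = laurentBaseChange L F₀ ⊆ L((q))`.  The `q`-adic valuation ring of `L((q))` restricts to a
valuation subring `cuspVS` of `B`; when `B` is a function field over `L` this is a place
`cuspPlace`, and it is fixed by the coefficientwise action of `Aut(L/ℚ)`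
(`arithmeticGalois_smul_cuspPlace`).
-/

set_option autoImplicit false

noncomputable section

namespace Fermat.Agent.P5.Desc

open AlgebraicCurve ModularCurve IntermediateField
open scoped Pointwise

variable {L : Type*} [Field L] [Algebra ℚ L] (F₀ : IntermediateField ℚ (LaurentSeries ℚ))

/-- The `q`-adic valuation subring of `B = laurentBaseChange L F₀`. -/
def cuspVS : ValuationSubring (laurentBaseChange L F₀) :=
  ((Valued.v : Valuation (LaurentSeries L) (WithZero (Multiplicative ℤ))).valuationSubring).comap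
    (algebraMap (laurentBaseChange L F₀) (LaurentSeries L))

theorem mem_cuspVS_iff (f : laurentBaseChange L F₀) :
    f ∈ cuspVS F₀ ↔ ∀ k : ℤ, k < 0 → (f : LaurentSeries L).coeff k = 0 := by
  rw [cuspVS, ValuationSubring.mem_comap, Valuation.mem_valuationSubring_iff]
  have h := LaurentSeries.valuation_le_iff_coeff_lt_eq_zero L (D := 0)
    (f := (f : LaurentSeries L))
  rw [neg_zero, WithZero.exp_zero] at h
  exact h

theorem algebraMap_mem_cuspVS (a : L) : algebraMap L (laurentBaseChange L F₀) a ∈ cuspVS F₀ := by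
  rw [mem_cuspVS_iff]
  intro k hk
  show (algebraMap L (LaurentSeries L) a).coeff k = 0
  rw [algebraMap_laurentSeries_eq_single, HahnSeries.coeff_single_of_ne hk.ne]

theorem coeffMap_mem_cuspVS_iff (σ : L ≃ₐ[ℚ] L) (f : laurentBaseChange L F₀) :
    arithmeticGalois F₀ σ • f ∈ cuspVS F₀ ↔ f ∈ cuspVS F₀ := by
  rw [mem_cuspVS_iff, mem_cuspVS_iff]
  refine forall_congr' fun k => forall_congr' fun _ => ?_
  rw [coe_arithmeticGalois_smul, coeffMap_coeff]
  exact map_eq_zero_iff _ σ.injective

theorem cuspVS_ne_top (x : laurentBaseChange L F₀) (hx : Transcendental L x) :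
    (cuspVS F₀ : ValuationSubring (laurentBaseChange L F₀)) ≠ ⊤ := by
  intro htop
  set y : laurentBaseChange L F₀ :=
    x - algebraMap L (laurentBaseChange L F₀) ((x : LaurentSeries L).coeff 0) with hy
  have hy0 : y ≠ 0 := by
    intro h
    apply hx
    rw [hy, sub_eq_zero] at h
    rw [h]
    exact isAlgebraic_algebraMap _
  have hc0 : (y : LaurentSeries L).coeff 0 = 0 := by
    show ((x : LaurentSeries L) - algebraMap L (LaurentSeries L) _).coeff 0 = 0
    rw [algebraMap_laurentSeries_eq_single, HahnSeries.coeff_sub, HahnSeries.coeff_single_same,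
      sub_self]
  have h1 : y ∈ cuspVS F₀ := htop ▸ ValuationSubring.mem_top y
  have h2 : y⁻¹ ∈ cuspVS F₀ := htop ▸ ValuationSubring.mem_top y⁻¹
  have hv1 : Valued.v (y : LaurentSeries L) ≤ WithZero.exp (-(1 : ℤ)) := by
    rw [LaurentSeries.valuation_le_iff_coeff_lt_eq_zero L]
    intro k hk
    have hk' : k ≤ 0 := by omega
    rcases lt_or_eq_of_le hk' with h | h
    · exact (mem_cuspVS_iff F₀ y).mp h1 k h
    · rw [h]; exact hc0
  have hv2 : Valued.v ((y⁻¹ : laurentBaseChange L F₀) : LaurentSeries L) ≤ 1 := by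
    have := h2
    rw [cuspVS, ValuationSubring.mem_comap, Valuation.mem_valuationSubring_iff] at this
    exact this
  have hyL : (y : LaurentSeries L) ≠ 0 := fun h => hy0 (Subtype.ext h)
  have hv0 : Valued.v (y : LaurentSeries L) ≠ 0 := (Valuation.ne_zero_iff _).mpr hyL
  have hv3 : (1 : WithZero (Multiplicative ℤ)) ≤ Valued.v (y : LaurentSeries L) := by
    have h4 : ((y⁻¹ : laurentBaseChange L F₀) : LaurentSeries L) = (y : LaurentSeries L)⁻¹ := rfl
    rw [h4, map_inv₀] at hv2
    exact (inv_le_one₀ (zero_lt_iff.mpr hv0)).mp hv2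
  have hlt : WithZero.exp (-(1 : ℤ)) < (1 : WithZero (Multiplicative ℤ)) := by
    rw [← WithZero.exp_zero, WithZero.exp_lt_exp]
    norm_num
  exact absurd (hv3.trans hv1) (not_le.mpr hlt)

/-- The cusp place: when `B` is a function field, `cuspVS` is the valuation ring of a place. -/
theorem exists_cuspPlace (x : laurentBaseChange L F₀) (hx : Transcendental L x)
    [FiniteDimensional L⟮x⟯ (laurentBaseChange L F₀)]
    [Algebra.IsSeparable L⟮x⟯ (laurentBaseChange L F₀)] :
    ∃ P : Place L (laurentBaseChange L F₀), P.toValuationSubring = cuspVS F₀ :=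
  Lib.FFPoles.exists_place_of_valuationSubring x (cuspVS F₀) (cuspVS_ne_top F₀ x hx)
    (algebraMap_mem_cuspVS F₀)

/-- The cusp place is fixed by the coefficientwise Galois action. -/
theorem arithmeticGalois_smul_cusp (σ : L ≃ₐ[ℚ] L) (P : Place L (laurentBaseChange L F₀))
    (hP : P.toValuationSubring = cuspVS F₀) : arithmeticGalois F₀ σ • P = P := by
  apply Place.ext
  rw [SemilinearAut.smul_toValuationSubring, hP]
  ext f
  rw [ValuationSubring.mem_pointwise_smul_iff_inv_smul_mem, ← map_inv,
    coeffMap_mem_cuspVS_iff]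

end Fermat.Agent.P5.Desc
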