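import Mathlib
import Fermat.Prelude.Def_AlgebraicCurve_BaseChangeGalois
import Fermat.Prelude.Def_ModularCurve_ArithmeticGalois
import Fermat.Agent.Lib.FFPoles
import Fermat.Agent.Lib.FFSep.Divisor
import Fermat.Agent.P5.Desc.BaseChange
import Fermat.Agent.P5.Desc.Cusp
import Fermat.Agent.P5.Desc.Plan

/-!
# P5 [DESC] — the spine: descent `K₁ → K₀` by the orbit argument (helper36)

`spineStmt ι F₀ : SpineStmt ι F₀` — the block export `DescStmt ι F₀ n` from the contracts of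
`P5/Desc/Plan.lean` and the external input `Finite (Pic0.torsion K₁ B n)`.
-/

set_option autoImplicit false

noncomputable section

namespace Fermat.Agent.P5.Desc

open AlgebraicCurve ModularCurve IntermediateField
open scoped Pointwise

/-! ### Reduced representatives: formal properties -/

section Red

variable {K F : Type*} [Field K] [Field F] [Algebra K F]

theorem IsRed.congr {P : Place K F} {D D' : Divisor K F} {m : ℕ} {E : Divisor K F}
    (hDD : D' - D ∈ Divisor.principal (K := K) (F := F)) (h : IsRed P D m E) :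
    IsRed P D' m E := by
  refine ⟨h.1, ?_, fun m' E' hE' hp => h.2.2 m' E' hE' ?_⟩
  · have := sub_mem h.2.1 hDD
    rwa [show E - Finsupp.single P (m : ℤ) - D - (D' - D) = E - Finsupp.single P (m : ℤ) - D' by
      abel] at this
  · have := add_mem hp hDD
    rwa [show E' - Finsupp.single P (m' : ℤ) - D' + (D' - D) = E' - Finsupp.single P (m' : ℤ) - D
      by abel] at this

theorem smul_nonneg_divisor (g : SemilinearAut K F) {E : Divisor K F} (hE : 0 ≤ E) :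
    0 ≤ g • E := by
  rw [Finsupp.le_def] at hE ⊢
  intro w
  rw [SemilinearAut.divisor_smul_apply]
  exact hE _

theorem IsRed.smul (g : SemilinearAut K F) {P : Place K F} (hP : g • P = P)
    {D : Divisor K F} {m : ℕ} {E : Divisor K F} (h : IsRed P D m E) :
    IsRed P (g • D) m (g • E) := by
  have hP' : g⁻¹ • P = P := by rw [inv_smul_eq_iff, hP]
  refine ⟨smul_nonneg_divisor g h.1, ?_, fun m' E' hE' hp => ?_⟩
  · have := SemilinearAut.smul_mem_principal g h.2.1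
    rwa [smul_sub, smul_sub, SemilinearAut.smul_single, hP] at this
  · refine h.2.2 m' (g⁻¹ • E') (smul_nonneg_divisor g⁻¹ hE') ?_
    have := SemilinearAut.smul_mem_principal g⁻¹ hp
    rwa [smul_sub, smul_sub, SemilinearAut.smul_single, hP', inv_smul_smul] at this

end Red

/-! ### The action of `Aut(K₁ / K₀)` -/

section Sigma

variable {K₀ K₁ : Type*} [Field K₀] [Field K₁] [Algebra ℚ K₁] [Algebra K₀ K₁]

/-- `Aut(K₁ / K₀) → Aut(K₁ / ℚ)`. -/
def ratAut : (K₁ ≃ₐ[K₀] K₁) →* (K₁ ≃ₐ[ℚ] K₁) where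
  toFun σ := AlgEquiv.ofRingEquiv (f := σ.toRingEquiv) (fun q => by simp)
  map_one' := rfl
  map_mul' _ _ := rfl

@[simp]
theorem ratAut_apply (σ : K₁ ≃ₐ[K₀] K₁) (t : K₁) :
    ratAut σ t = σ t := rfl

variable (K₀) (F₀ : IntermediateField ℚ (LaurentSeries ℚ))

/-- The coefficientwise action of `Aut(K₁ / K₀)` on `B = laurentBaseChange K₁ F₀`. -/
def sigmaHom : (K₁ ≃ₐ[K₀] K₁) →* SemilinearAut K₁ (laurentBaseChange K₁ F₀) :=
  (arithmeticGalois F₀).comp ratAut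

theorem coeff_sigmaHom_smul (σ : K₁ ≃ₐ[K₀] K₁) (f : laurentBaseChange K₁ F₀) (k : ℤ) :
    ((sigmaHom K₀ F₀ σ • f : laurentBaseChange K₁ F₀) : LaurentSeries K₁).coeff k
      = σ ((f : LaurentSeries K₁).coeff k) := rfl

theorem sigmaHom_smul_algebraMap (σ : K₁ ≃ₐ[K₀] K₁) (a : K₁) :
    sigmaHom K₀ F₀ σ • algebraMap K₁ (laurentBaseChange K₁ F₀) a
      = algebraMap K₁ (laurentBaseChange K₁ F₀) (σ a) :=
  SemilinearAut.smul_algebraMap _ a

theorem sigmaHom_smul_cusp (σ : K₁ ≃ₐ[K₀] K₁) (P : Place K₁ (laurentBaseChange K₁ F₀))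
    (hP : P.toValuationSubring = cuspVS F₀) : sigmaHom K₀ F₀ σ • P = P :=
  arithmeticGalois_smul_cusp F₀ _ P hP

end Sigma

/-! ### Group-theoretic helpers -/

section Grp

theorem finiteIndex_comap {G G' : Type*} [Group G] [Group G'] (φ : G' →* G) (S : Subgroup G)
    [S.FiniteIndex] : (S.comap φ).FiniteIndex := by
  rw [Subgroup.finiteIndex_iff, Subgroup.index_comap]
  exact Subgroup.FiniteIndex.index_ne_zero (H := S.subgroupOf φ.range)

theorem finiteIndex_stabilizer {G X : Type*} [Group G] [MulAction G X] (x : X) (T : Set X)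
    (hT : T.Finite) (h : ∀ g : G, g • x ∈ T) : (MulAction.stabilizer G x).FiniteIndex := by
  rw [Subgroup.finiteIndex_iff, MulAction.index_stabilizer]
  have hfin : (MulAction.orbit G x).Finite := hT.subset (by rintro _ ⟨g, rfl⟩; exact h g)
  exact Set.ncard_ne_zero_of_mem (MulAction.mem_orbit_self x) hfin

end Grp

/-! ### Semi-invariance of the normalised function -/

section SemiInv

variable {K F : Type*} [Field K] [Field F] [Algebra K F]

theorem exists_const_smul [IsAlgClosed K] (x : F) [FiniteDimensional K⟮x⟯ F] [Algebra.IsSeparable K⟮x⟯ F]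
    (P : Place K F) (hred : RedStmt K F P) {D : Divisor K F} (hD0 : Divisor.degree D = 0)
    {m : ℕ} {E : Divisor K F}
    (hE : IsRed P D m E) (n : ℤ) {f : F} (hf0 : f ≠ 0)
    (hord : ∀ v : Place K F, v.ord f = n * (E - Finsupp.single P (m : ℤ)) v)
    (g : SemilinearAut K F) (hgP : g • P = P)
    (hDD : D - g • D ∈ Divisor.principal (K := K) (F := F)) :
    ∃ d : K, g • f = algebraMap K F d * f := by
  have hr1 : IsRed P (g • D) m (g • E) := hE.smul g hgP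
  have hr2 : IsRed P D m (g • E) := hr1.congr hDD
  have hgE : g • E = E := (hred.2 D hD0 m m (g • E) E hr2 hE).2
  have hordg : ∀ v : Place K F, v.ord (g • f) = v.ord f := by
    intro v
    have h3 := SemilinearAut.ord_smul g (g⁻¹ • v) f
    rw [smul_inv_smul] at h3
    rw [h3, hord, hord, ← SemilinearAut.divisor_smul_apply, smul_sub,
      SemilinearAut.smul_single, hgP, hgE]
  have hgf0 : g • f ≠ 0 := by
    intro h0
    apply hf0
    have := congrArg (fun z => g⁻¹ • z) h0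
    simpa using this
  obtain ⟨d, hd⟩ := Lib.FFPoles.mem_range_of_forall_ord_eq_zero (K := K) x (y := g • f * f⁻¹)
    (fun v => by
      rw [v.ord_mul hgf0 (inv_ne_zero hf0), v.ord_inv, hordg]; ring)
  refine ⟨d, ?_⟩
  rw [hd]
  field_simp

theorem sub_smul_mem_principal_of_smul_mk_eq (g : SemilinearAut K F) (D : Divisor K F)
    (hD0 : Divisor.degree D = 0)
    (h : g • (Pic0.mk ⟨D, hD0⟩ : Pic0 K F) = Pic0.mk ⟨D, hD0⟩) :
    D - g • D ∈ Divisor.principal (K := K) (F := F) := by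
  have h1 : Pic0.mk (SemilinearAut.degZeroSMulHom g ⟨D, hD0⟩) = Pic0.mk ⟨D, hD0⟩ := h
  rw [Pic0.mk, Pic0.mk, QuotientAddGroup.eq, AddSubgroup.mem_addSubgroupOf] at h1
  have h2 : ((-(SemilinearAut.degZeroSMulHom g ⟨D, hD0⟩) + ⟨D, hD0⟩ :
      Divisor.degZero (K := K) (F := F)) : Divisor K F) = D - g • D := by
    rw [AddSubgroup.coe_add, AddSubgroup.coe_neg, SemilinearAut.coe_degZeroSMulHom]
    abel
  rwa [h2] at h1

theorem mk_mem_torsion_of_zsmul_mem (D : Divisor K F) (hD0 : Divisor.degree D = 0) (n : ℕ)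
    (h : (n : ℤ) • D ∈ Divisor.principal (K := K) (F := F)) :
    (Pic0.mk ⟨D, hD0⟩ : Pic0 K F) ∈ Pic0.torsion K F n := by
  rw [Pic0.mem_torsion]
  show (n : ℤ) • (QuotientAddGroup.mk
    (⟨D, hD0⟩ : Divisor.degZero (K := K) (F := F)) : Pic0 K F) = 0
  rw [← QuotientAddGroup.mk_zsmul, QuotientAddGroup.eq_zero_iff,
    AddSubgroup.mem_addSubgroupOf, AddSubgroup.coe_zsmul]
  exact h

end SemiInv

/-! ### The core -/

section Core

variable {K₀ K₁ : Type*} [Field K₀] [Field K₁] [Algebra ℚ K₁] [Algebra K₀ K₁]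
  (F₀ : IntermediateField ℚ (LaurentSeries ℚ))

variable (K₀) in
/-- The stabiliser in `Aut(K₁ / K₀)` of a class of `Pic⁰(B)`. -/
def stabSub (c₀ : Pic0 K₁ (laurentBaseChange K₁ F₀)) : Subgroup (K₁ ≃ₐ[K₀] K₁) :=
  (MulAction.stabilizer (SemilinearAut K₁ (laurentBaseChange K₁ F₀)) c₀).comap (sigmaHom K₀ F₀)

theorem mem_stabSub (c₀ : Pic0 K₁ (laurentBaseChange K₁ F₀)) (σ : K₁ ≃ₐ[K₀] K₁) :
    σ ∈ stabSub K₀ F₀ c₀ ↔ sigmaHom K₀ F₀ σ • c₀ = c₀ :=
  MulAction.mem_stabilizer_iff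

theorem finiteIndex_stabSub (c₀ : Pic0 K₁ (laurentBaseChange K₁ F₀)) (n : ℕ)
    (hfin : Finite (Pic0.torsion K₁ (laurentBaseChange K₁ F₀) n))
    (hc₀ : c₀ ∈ Pic0.torsion K₁ (laurentBaseChange K₁ F₀) n) :
    (stabSub K₀ F₀ c₀).FiniteIndex := by
  have hS : (MulAction.stabilizer (SemilinearAut K₁ (laurentBaseChange K₁ F₀)) c₀).FiniteIndex :=
    finiteIndex_stabilizer c₀ (Pic0.torsion K₁ (laurentBaseChange K₁ F₀) n : Set _)
      (Set.toFinite _) (fun g => SemilinearAut.smul_mem_torsion g hc₀)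
  exact finiteIndex_comap _ _

/-- Step 5: the normalised function is fixed by the stabiliser of the class of `D`. -/
theorem smul_eq_self_of_stab [IsAlgClosed K₁] (x : laurentBaseChange K₁ F₀)
    [FiniteDimensional K₁⟮x⟯ (laurentBaseChange K₁ F₀)]
    [Algebra.IsSeparable K₁⟮x⟯ (laurentBaseChange K₁ F₀)]
    (Pc : Place K₁ (laurentBaseChange K₁ F₀)) (hPc : Pc.toValuationSubring = cuspVS F₀)
    (hred : RedStmt K₁ (laurentBaseChange K₁ F₀) Pc)
    {D : Divisor K₁ (laurentBaseChange K₁ F₀)} (hD0 : Divisor.degree D = 0) {m : ℕ}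
    {E : Divisor K₁ (laurentBaseChange K₁ F₀)} (hE : IsRed Pc D m E) (n : ℤ)
    {f : laurentBaseChange K₁ F₀} (hf0 : f ≠ 0)
    (hord : ∀ v : Place K₁ (laurentBaseChange K₁ F₀),
      v.ord f = n * (E - Finsupp.single Pc (m : ℤ)) v)
    (k₀ : ℤ) (hlead : (f : LaurentSeries K₁).coeff k₀ = 1)
    (σ : K₁ ≃ₐ[K₀] K₁)
    (hσ : σ ∈ stabSub K₀ F₀ (Pic0.mk ⟨D, hD0⟩)) :
    sigmaHom K₀ F₀ σ • f = f := by
  have hgc := (mem_stabSub F₀ _ σ).mp hσ
  have hgP : sigmaHom K₀ F₀ σ • Pc = Pc := sigmaHom_smul_cusp K₀ F₀ σ Pc hPc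
  have hDD := sub_smul_mem_principal_of_smul_mk_eq (sigmaHom K₀ F₀ σ) D hD0 hgc
  obtain ⟨d, hd'⟩ := exists_const_smul x Pc hred hD0 hE n hf0 hord (sigmaHom K₀ F₀ σ) hgP hDD
  have hd1 : d = 1 := by
    have h4 := congrArg (fun z : laurentBaseChange K₁ F₀ => (z : LaurentSeries K₁).coeff k₀) hd'
    beta_reduce at h4
    rw [coeff_sigmaHom_smul, hlead, map_one] at h4
    rw [show ((algebraMap K₁ (laurentBaseChange K₁ F₀) d * f : laurentBaseChange K₁ F₀) :
        LaurentSeries K₁).coeff k₀ = d * (f : LaurentSeries K₁).coeff k₀ from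
      coeff_algebraMap_mul d _ k₀, hlead, mul_one] at h4
    exact h4.symm
  rw [hd', hd1, map_one, one_mul]

/-- Steps 6–7: a nonzero element of `B` all of whose coefficients lie in `K₀` comes from `A`. -/
theorem exists_baseMap_eq [Algebra ℚ K₀] (f : laurentBaseChange K₁ F₀)
    (hcoef : ∀ k : ℤ, ∃ b : K₀, algebraMap K₀ K₁ b = (f : LaurentSeries K₁).coeff k) :
    ∃ f₀ : laurentBaseChange K₀ F₀, baseMap (algebraMap K₀ K₁) F₀ f₀ = f := by
  choose b hb using hcoef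
  have hsupp : Function.support b = (f : LaurentSeries K₁).support := by
    ext k
    simp only [Function.mem_support, HahnSeries.mem_support, ← hb k]
    rw [Ne, Ne, map_eq_zero]
  let g₀ : LaurentSeries K₀ :=
    ⟨b, by rw [hsupp]; exact (f : LaurentSeries K₁).isPWO_support⟩
  have hg₀ : coeffMap (algebraMap K₀ K₁) g₀ = (f : LaurentSeries K₁) := by
    ext k
    rw [coeffMap_coeff]
    exact hb k
  have hg₀A : g₀ ∈ laurentBaseChange K₀ F₀ :=
    mem_laurentBaseChange_of_coeffMap_mem (algebraMap K₀ K₁) F₀ g₀ (by rw [hg₀]; exact f.2)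
  exact ⟨⟨g₀, hg₀A⟩, Subtype.ext hg₀⟩

/-- Steps 1–3: reduction to a normalised function with divisor `n (E - m P)`. -/
theorem exists_normalised [IsAlgClosed K₁] (x : laurentBaseChange K₁ F₀)
    (hxt : Transcendental K₁ x)
    [FiniteDimensional K₁⟮x⟯ (laurentBaseChange K₁ F₀)]
    [Algebra.IsSeparable K₁⟮x⟯ (laurentBaseChange K₁ F₀)]
    (Pc : Place K₁ (laurentBaseChange K₁ F₀))
    (hred : RedStmt K₁ (laurentBaseChange K₁ F₀) Pc)
    (n : ℕ) (hn : n ≠ 0)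
    (f : laurentBaseChange K₁ F₀) (hf : f ≠ 0)
    (hdiv : ∀ P : Place K₁ (laurentBaseChange K₁ F₀), (n : ℤ) ∣ P.ord f) :
    ∃ (D : Divisor K₁ (laurentBaseChange K₁ F₀)) (hD0 : Divisor.degree D = 0) (m : ℕ)
      (E : Divisor K₁ (laurentBaseChange K₁ F₀)) (g h : laurentBaseChange K₁ F₀) (a : K₁)
      (k₀ : ℤ),
      (Pic0.mk ⟨D, hD0⟩ : Pic0 K₁ (laurentBaseChange K₁ F₀))
        ∈ Pic0.torsion K₁ (laurentBaseChange K₁ F₀) n ∧
      IsRed Pc D m E ∧ g ≠ 0 ∧ h ≠ 0 ∧ a ≠ 0 ∧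
      (∀ v : Place K₁ (laurentBaseChange K₁ F₀),
        v.ord g = (n : ℤ) * (E - Finsupp.single Pc (m : ℤ)) v) ∧
      (g : LaurentSeries K₁).coeff k₀ = 1 ∧
      f = algebraMap K₁ (laurentBaseChange K₁ F₀) a * g * h ^ n := by
  classical
  have hnZ : (n : ℤ) ≠ 0 := Int.natCast_ne_zero.mpr hn
  obtain ⟨D, hDapp⟩ : ∃ D : Divisor K₁ (laurentBaseChange K₁ F₀),
      ∀ v : Place K₁ (laurentBaseChange K₁ F₀), D v = v.ord f / (n : ℤ) :=
    ⟨(Lib.FFSep.divOf hxt f).mapRange (fun z => z / (n : ℤ)) (by simp), fun v => by simp⟩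
  have hnD : ∀ v : Place K₁ (laurentBaseChange K₁ F₀), (n : ℤ) * D v = v.ord f := fun v => by
    rw [hDapp]; exact Int.mul_ediv_cancel' (hdiv v)
  have hnD' : (n : ℤ) • D = Lib.FFSep.divOf hxt f := by
    ext v
    rw [Finsupp.smul_apply, smul_eq_mul, hnD, Lib.FFSep.divOf_apply]
  have hD0 : Divisor.degree D = 0 := by
    have h1 : (n : ℤ) * Divisor.degree D = 0 := by
      rw [← smul_eq_mul, ← map_zsmul, hnD']
      exact Lib.FFSep.degree_divOf hxt hf
    exact (mul_eq_zero.mp h1).resolve_left hnZ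
  obtain ⟨m, E, hred1⟩ := hred.1 D hD0
  obtain ⟨f₁, hf₁0, hf₁⟩ := hred1.2.1
  have hf'0 : f * f₁ ^ n ≠ 0 := mul_ne_zero hf (pow_ne_zero _ hf₁0)
  have hord' : ∀ v : Place K₁ (laurentBaseChange K₁ F₀),
      v.ord (f * f₁ ^ n) = (n : ℤ) * (E - Finsupp.single Pc (m : ℤ)) v := by
    intro v
    rw [v.ord_mul hf (pow_ne_zero _ hf₁0), ← zpow_natCast, v.ord_zpow, ← hf₁ v, ← hnD v]
    simp only [Finsupp.sub_apply]
    ring
  have hfL0 : ((f * f₁ ^ n : laurentBaseChange K₁ F₀) : LaurentSeries K₁) ≠ 0 :=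
    fun h => hf'0 (Subtype.ext h)
  obtain ⟨k₀, hk₀⟩ : ∃ k₀ : ℤ,
      ((f * f₁ ^ n : laurentBaseChange K₁ F₀) : LaurentSeries K₁).coeff k₀ ≠ 0 :=
    ⟨_, fun h => hfL0 (HahnSeries.coeff_order_eq_zero.mp h)⟩
  obtain ⟨a, ha⟩ : ∃ a : K₁,
      a = ((f * f₁ ^ n : laurentBaseChange K₁ F₀) : LaurentSeries K₁).coeff k₀ := ⟨_, rfl⟩
  have ha0 : a ≠ 0 := ha ▸ hk₀
  have hca0 : algebraMap K₁ (laurentBaseChange K₁ F₀) a⁻¹ ≠ 0 := by simpa using ha0
  refine ⟨D, hD0, m, E, algebraMap K₁ (laurentBaseChange K₁ F₀) a⁻¹ * (f * f₁ ^ n), f₁⁻¹, a, k₀,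
    ?_, hred1, mul_ne_zero hca0 hf'0, inv_ne_zero hf₁0, ha0, ?_, ?_, ?_⟩
  · exact mk_mem_torsion_of_zsmul_mem D hD0 n (by
      rw [hnD']; exact Lib.FFSep.divOf_mem_principal hxt hf)
  · intro v
    rw [v.ord_mul hca0 hf'0, Lib.FFPlaces.ord_algebraMap, zero_add, hord']
  · rw [show ((algebraMap K₁ (laurentBaseChange K₁ F₀) a⁻¹ * (f * f₁ ^ n) :
        laurentBaseChange K₁ F₀) : LaurentSeries K₁).coeff k₀
        = a⁻¹ * ((f * f₁ ^ n : laurentBaseChange K₁ F₀) : LaurentSeries K₁).coeff k₀ from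
      coeff_algebraMap_mul a⁻¹ _ k₀, ← ha, inv_mul_cancel₀ ha0]
  · have hca : algebraMap K₁ (laurentBaseChange K₁ F₀) a
        * algebraMap K₁ (laurentBaseChange K₁ F₀) a⁻¹ = 1 := by
      rw [← map_mul, mul_inv_cancel₀ ha0, map_one]
    rw [← mul_assoc, hca, one_mul, inv_pow, mul_assoc,
      mul_inv_cancel₀ (pow_ne_zero _ hf₁0), mul_one]

/-- **The core of the descent** (internal form, `ι = algebraMap K₀ K₁`). -/
theorem descCore_aux [Algebra ℚ K₀] [IsAlgClosed K₁] (x : laurentBaseChange K₁ F₀)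
    (hxt : Transcendental K₁ x)
    [FiniteDimensional K₁⟮x⟯ (laurentBaseChange K₁ F₀)]
    [Algebra.IsSeparable K₁⟮x⟯ (laurentBaseChange K₁ F₀)]
    (hfix : ∀ (H : Subgroup (K₁ ≃ₐ[K₀] K₁)), H.FiniteIndex →
      ∀ t : K₁, (∀ σ ∈ H, σ t = t) → t ∈ Set.range (algebraMap K₀ K₁))
    (hred : ∀ P : Place K₁ (laurentBaseChange K₁ F₀), RedStmt K₁ (laurentBaseChange K₁ F₀) P)
    (n : ℕ) (hn : n ≠ 0) (hfin : Finite (Pic0.torsion K₁ (laurentBaseChange K₁ F₀) n))
    (f : laurentBaseChange K₁ F₀) (hf : f ≠ 0)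
    (hdiv : ∀ P : Place K₁ (laurentBaseChange K₁ F₀), (n : ℤ) ∣ P.ord f) :
    ∃ (c : K₁) (f₀ : laurentBaseChange K₀ F₀) (h : laurentBaseChange K₁ F₀),
      c ≠ 0 ∧ f₀ ≠ 0 ∧ h ≠ 0 ∧
      f = algebraMap K₁ (laurentBaseChange K₁ F₀) c
        * baseMap (algebraMap K₀ K₁) F₀ f₀ * h ^ n := by
  obtain ⟨Pc, hPc⟩ := exists_cuspPlace F₀ x hxt
  obtain ⟨D, hD0, m, E, g, h, a, k₀, htor, hE, hg0, hh0, ha0, hord, hlead, hfac⟩ :=
    exists_normalised F₀ x hxt Pc (hred Pc) n hn f hf hdiv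
  have hH := finiteIndex_stabSub (K₀ := K₀) F₀ _ n hfin htor
  have hcoef : ∀ k : ℤ, ∃ b : K₀, algebraMap K₀ K₁ b = (g : LaurentSeries K₁).coeff k := by
    intro k
    refine hfix _ hH _ fun σ hσ => ?_
    rw [← coeff_sigmaHom_smul K₀ F₀ σ g k,
      smul_eq_self_of_stab F₀ x Pc hPc (hred Pc) hD0 hE (n : ℤ) hg0 hord k₀ hlead σ hσ]
  obtain ⟨f₀, hf₀⟩ := exists_baseMap_eq F₀ g hcoef
  refine ⟨a, f₀, h, ha0, ?_, hh0, ?_⟩
  · intro h0
    rw [h0, map_zero] at hf₀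
    exact hg0 hf₀.symm
  · rw [hf₀]
    exact hfac

end Core

/-! ### The block export -/

theorem isSeparable_of_finite_charZero {K F : Type*} [Field K] [Field F] [Algebra K F]
    [CharZero K] (x : F) [FiniteDimensional K⟮x⟯ F] : Algebra.IsSeparable K⟮x⟯ F := by
  have h1 : CharZero K⟮x⟯ := charZero_of_injective_algebraMap (algebraMap K K⟮x⟯).injective
  have h2 : Algebra.IsAlgebraic K⟮x⟯ F := Algebra.IsAlgebraic.of_finite _ _
  exact Algebra.IsAlgebraic.isSeparable_of_perfectField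

section Export

variable {K₀ K₁ : Type*} [Field K₀] [Field K₁] [Algebra ℚ K₀] [Algebra ℚ K₁]
  (ι : K₀ →+* K₁) (F₀ : IntermediateField ℚ (LaurentSeries ℚ))

/-- In characteristic zero, a finite extension `B / K₁(x)` is separable. -/
theorem isSeparable_of_finite (x : laurentBaseChange K₁ F₀)
    [FiniteDimensional K₁⟮x⟯ (laurentBaseChange K₁ F₀)] :
    Algebra.IsSeparable K₁⟮x⟯ (laurentBaseChange K₁ F₀) :=
  have : CharZero K₁ := algebraRat.charZero K₁
  isSeparable_of_finite_charZero x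

/-- The core of the descent, for an arbitrary `ι : K₀ →+* K₁`. -/
theorem descCore [IsAlgClosed K₁] (x : laurentBaseChange K₁ F₀) (hxt : Transcendental K₁ x)
    [FiniteDimensional K₁⟮x⟯ (laurentBaseChange K₁ F₀)]
    (hfix : FixedStmt ι)
    (hred : ∀ P : Place K₁ (laurentBaseChange K₁ F₀), RedStmt K₁ (laurentBaseChange K₁ F₀) P)
    (n : ℕ) (hn : n ≠ 0) (hfin : Finite (Pic0.torsion K₁ (laurentBaseChange K₁ F₀) n)) :
    DescCoreStmt ι F₀ n := by
  intro f hf hdiv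
  have hsep := isSeparable_of_finite F₀ x
  let _ : Algebra K₀ K₁ := ι.toAlgebra
  exact descCore_aux (K₀ := K₀) F₀ x hxt hfix hred n hn hfin f hf hdiv

/-- `DescCoreStmt` + `ExtStmt` ⇒ `DescStmt`. -/
theorem desc_of_core (n : ℕ) (hcore : DescCoreStmt ι F₀ n) (hext : ExtStmt ι F₀) :
    DescStmt ι F₀ n := by
  intro f hf hdiv
  obtain ⟨c, f₀, h, hc0, hf₀0, hh0, hfac⟩ := hcore f hf hdiv
  refine ⟨c, f₀, h, hc0, hf₀0, hh0, hfac, fun p => ?_⟩
  obtain ⟨P, hP⟩ := hext p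
  rw [← hP f₀]
  have hb0 : baseMap ι F₀ f₀ ≠ 0 := (map_ne_zero_iff _ (baseMap_injective ι F₀)).mpr hf₀0
  have hca0 : algebraMap K₁ (laurentBaseChange K₁ F₀) c ≠ 0 := by simpa using hc0
  have h1 : P.ord f = P.ord (baseMap ι F₀ f₀) + (n : ℤ) * P.ord h := by
    rw [hfac, P.ord_mul (mul_ne_zero hca0 hb0) (pow_ne_zero _ hh0), P.ord_mul hca0 hb0,
      Lib.FFPlaces.ord_algebraMap, zero_add, ← zpow_natCast, P.ord_zpow]
  have h2 : P.ord (baseMap ι F₀ f₀) = P.ord f - (n : ℤ) * P.ord h := by rw [h1]; ring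
  rw [h2]
  exact dvd_sub (hdiv P) (dvd_mul_right _ _)

/-- **The spine of [DESC].** -/
theorem spineStmt : SpineStmt ι F₀ := by
  intro _ _ x₀ hx₀ hfd hdeg hfix hext hred n hn hfin
  obtain ⟨hfd₁, -⟩ := hdeg x₀ hx₀ hfd
  exact desc_of_core ι F₀ n
    (descCore ι F₀ (baseMap ι F₀ x₀) (transcendental_baseMap ι F₀ x₀ hx₀) hfix hred n hn hfin)
    hext

end Export

end Fermat.Agent.P5.Desc
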