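import Mathlib
import Fermat.Agent.P5.Desc.Spine
import Fermat.Agent.P5.Desc.Deg
import Fermat.Agent.Lib.AutTranscendental
import Fermat.Agent.Lib.ReducedDivisor
import Fermat.Agent.Lib.PlaceBaseChange

/-!
# P5 [DESC] — all contracts provided: the descent theorem (helper36)

* `fixedStmt` (from helper89's `Lib/AutTranscendental`), `redStmt` (helper68's
  `Lib/ReducedDivisor`), `extStmt` (helper68's `Lib/PlaceBaseChange` + helper31's
  `P5/Desc/Deg`);
* **`desc`** : `DescStmt ι F₀ n`, with the single external hypothesis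
  `Finite (Pic0.torsion K₁ B n)`;
* `descCore'` : `DescCoreStmt ι F₀ n` (same hypotheses).
-/

set_option autoImplicit false

noncomputable section

namespace Fermat.Agent.P5.Desc

open AlgebraicCurve ModularCurve IntermediateField

/-- [D4] provided. -/
theorem redStmt {K F : Type*} [Field K] [Field F] [Algebra K F] [IsAlgClosed K] (x : F)
    (hxt : Transcendental K x) [FiniteDimensional K⟮x⟯ F] [Algebra.IsSeparable K⟮x⟯ F]
    (P : Place K F) : RedStmt K F P :=
  ⟨fun D _ => Lib.ReducedDivisor.exists_isReduced hxt P D,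
    fun _ hD _ _ _ _ h h' => Lib.ReducedDivisor.IsReduced.unique hxt hD h h'⟩

variable {K₀ K₁ : Type*} [Field K₀] [Field K₁] [Algebra ℚ K₀] [Algebra ℚ K₁]

/-- [D1] provided. -/
theorem fixedStmt (ι : K₀ →+* K₁) [IsAlgClosed K₀] [IsAlgClosed K₁] : FixedStmt ι := by
  have h0 : CharZero K₀ := algebraRat.charZero K₀
  let _ : Algebra K₀ K₁ := ι.toAlgebra
  intro H hH t ht
  exact Lib.AutTranscendental.mem_range_of_fixed_of_finiteIndex H t ht

variable (ι : K₀ →+* K₁) (F₀ : IntermediateField ℚ (LaurentSeries ℚ))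
  [IsAlgClosed K₀] [IsAlgClosed K₁]

/-- [D3b] provided. -/
theorem extStmt (x₀ : laurentBaseChange K₀ F₀) (hx₀ : Transcendental K₀ x₀)
    [FiniteDimensional K₀⟮x₀⟯ (laurentBaseChange K₀ F₀)] : ExtStmt ι F₀ := by
  obtain ⟨hfd₁, hdeg⟩ := Deg.degStmt ι F₀ x₀ hx₀ inferInstance
  have hsep₀ := isSeparable_of_finite F₀ x₀
  have hsep₁ := isSeparable_of_finite F₀ (baseMap ι F₀ x₀)
  have S : Lib.PlaceBaseChange.Setup ι (baseMap ι F₀) x₀ (baseMap ι F₀ x₀) :=
    ⟨baseMap_algebraMap ι F₀, rfl, hx₀, transcendental_baseMap ι F₀ x₀ hx₀, hdeg,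
      mem_range_algebraMap_of_baseMap_mem ι F₀⟩
  intro p
  exact ⟨S.ext p, S.ord_ext p⟩

/-- **[DESC], the block export.**  `K₀ ⊆ K₁` algebraically closed of characteristic zero,
`A = laurentBaseChange K₀ F₀` a function field (finite over `K₀(x₀)`), `B = laurentBaseChange
K₁ F₀`, and `Pic⁰(B)[n]` finite.  Then every `f ∈ B^×` with `n ∣ ord_P f` for all places `P`
of `B` is `c · ι(f₀) · h ^ n` with `c ∈ K₁^×`, `h ∈ B^×`, `f₀ ∈ A^×` and `n ∣ ord_p f₀` for all
places `p` of `A`. -/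
theorem desc (x₀ : laurentBaseChange K₀ F₀) (hx₀ : Transcendental K₀ x₀)
    [FiniteDimensional K₀⟮x₀⟯ (laurentBaseChange K₀ F₀)] (n : ℕ) (hn : n ≠ 0)
    (hfin : Finite (Pic0.torsion K₁ (laurentBaseChange K₁ F₀) n)) : DescStmt ι F₀ n := by
  obtain ⟨hfd₁, -⟩ := Deg.degStmt ι F₀ x₀ hx₀ inferInstance
  have hsep₁ := isSeparable_of_finite F₀ (baseMap ι F₀ x₀)
  exact spineStmt ι F₀ inferInstance inferInstance x₀ hx₀ inferInstance (Deg.degStmt ι F₀)
    (fixedStmt ι) (extStmt ι F₀ x₀ hx₀)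
    (fun P => redStmt (baseMap ι F₀ x₀) (transcendental_baseMap ι F₀ x₀ hx₀) P) n hn hfin

/-- The core form (no statement about the places of `A`). -/
theorem descCore' (x₀ : laurentBaseChange K₀ F₀) (hx₀ : Transcendental K₀ x₀)
    [FiniteDimensional K₀⟮x₀⟯ (laurentBaseChange K₀ F₀)] (n : ℕ) (hn : n ≠ 0)
    (hfin : Finite (Pic0.torsion K₁ (laurentBaseChange K₁ F₀) n)) : DescCoreStmt ι F₀ n := by
  intro f hf hdiv
  obtain ⟨c, f₀, h, hc, hf₀, hh, hfac, -⟩ := desc ι F₀ x₀ hx₀ n hn hfin f hf hdiv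
  exact ⟨c, f₀, h, hc, hf₀, hh, hfac⟩

end Fermat.Agent.P5.Desc
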