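import Mathlib
import Fermat.Agent.P5.Desc.Provide
import Fermat.Agent.S18.FibreCount

/-!
# P5 [DESC] — the modular instance (helper36)

`descModular` : the descent `ℂ → Q̄` for `K_C = laurentBaseChange ℂ (modularFunctionFieldFull N)`
and `F_N = modularFunctionFieldBar N`, for ANY `ι : Q̄ →+* ℂ`.  Single hypothesis:
`Finite (Pic0.torsion ℂ K_C n)`.
-/

set_option autoImplicit false

noncomputable section

namespace Fermat.Agent.P5.Desc

open AlgebraicCurve ModularCurve IntermediateField Fermat.Agent.S24 Fermat.Agent.S18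

/-- **Descent `ℂ → Q̄` for `X₀(N)`** (step 4b of Directive 6).  Every `f ∈ K_C^×` with
`n ∣ ord_P f` at all places `P` of `K_C` is `c · ι(f₀) · h ^ n` with `c ∈ ℂ^×`, `h ∈ K_C^×`,
`f₀ ∈ F_N^×` and `n ∣ ord_p f₀` at all places `p` of `F_N`. -/
theorem descModular (N : ℕ) [NeZero N] (ι : AlgebraicClosure ℚ →+* ℂ) (n : ℕ) (hn : n ≠ 0)
    (hfin : Finite (Pic0.torsion ℂ (laurentBaseChange ℂ (modularFunctionFieldFull N)) n)) :
    DescStmt ι (modularFunctionFieldFull N) n :=
  have := FibreCount.finiteDimensional N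
  desc ι (modularFunctionFieldFull N) (jBar N) (FibreCount.transcendental_jBar N) n hn hfin

/-- The same statement, unfolded. -/
theorem descModular' (N : ℕ) [NeZero N] (ι : AlgebraicClosure ℚ →+* ℂ) (n : ℕ) (hn : n ≠ 0)
    (hfin : Finite (Pic0.torsion ℂ (laurentBaseChange ℂ (modularFunctionFieldFull N)) n))
    (f : laurentBaseChange ℂ (modularFunctionFieldFull N)) (hf : f ≠ 0)
    (hdiv : ∀ P : Place ℂ (laurentBaseChange ℂ (modularFunctionFieldFull N)), (n : ℤ) ∣ P.ord f) :
    ∃ (c : ℂ) (f₀ : modularFunctionFieldBar N)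
      (h : laurentBaseChange ℂ (modularFunctionFieldFull N)),
      c ≠ 0 ∧ f₀ ≠ 0 ∧ h ≠ 0 ∧
      f = algebraMap ℂ (laurentBaseChange ℂ (modularFunctionFieldFull N)) c
        * baseMap ι (modularFunctionFieldFull N) f₀ * h ^ n ∧
      ∀ p : Place (AlgebraicClosure ℚ) (modularFunctionFieldBar N), (n : ℤ) ∣ p.ord f₀ :=
  descModular N ι n hn hfin f hf hdiv

/-- The image of `j ∈ F_N` in `K_C` is the `q`-expansion of `j` with complex coefficients. -/
theorem coe_baseMap_jBar (N : ℕ) [NeZero N] (ι : AlgebraicClosure ℚ →+* ℂ) :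
    ((baseMap ι (modularFunctionFieldFull N) (jBar N) :
        laurentBaseChange ℂ (modularFunctionFieldFull N)) : LaurentSeries ℂ) = coeffEmb ℂ jq :=
  coeffMap_coeffEmb' ι jq

/-- The degree of `K_C` over `ℂ(j)` (for [MODFUN]). -/
theorem finrank_KC (N : ℕ) [NeZero N] (ι : AlgebraicClosure ℚ →+* ℂ) :
    FiniteDimensional ℂ⟮baseMap ι (modularFunctionFieldFull N) (jBar N)⟯
        (laurentBaseChange ℂ (modularFunctionFieldFull N)) ∧
      Module.finrank ℂ⟮baseMap ι (modularFunctionFieldFull N) (jBar N)⟯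
        (laurentBaseChange ℂ (modularFunctionFieldFull N)) = dedekindPsi N := by
  have h := Deg.degStmt ι (modularFunctionFieldFull N) (jBar N)
    (FibreCount.transcendental_jBar N) (FibreCount.finiteDimensional N)
  exact ⟨h.1, h.2.trans (FibreCount.finrank_eq N)⟩

end Fermat.Agent.P5.Desc
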