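import Mathlib
import Fermat.Agent.P5.Desc.Modular
import Fermat.Agent.P5.Kappa.FinTorsionFinal

/-!
# P5 [DESC] — the unconditional modular descent (helper36)

`descFinal` : `DescStmt ι (modularFunctionFieldFull N) n` for every `ι : Q̄ →+* ℂ` and `n ≠ 0`,
with NO hypothesis left: the finiteness of `Pic⁰(K_C / ℂ)[n]` is helper72's
`Kappa.finite_torsion_realC'` (blocks [KAPPA] + [MODFUN]).
-/

set_option autoImplicit false

noncomputable section

namespace Fermat.Agent.P5.Desc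

open AlgebraicCurve ModularCurve

/-- **Descent `ℂ → Q̄` for `X₀(N)`, unconditional** (step 4b of Directive 6). -/
theorem descFinal (N : ℕ) [NeZero N] (ι : AlgebraicClosure ℚ →+* ℂ) (n : ℕ) (hn : n ≠ 0) :
    DescStmt ι (modularFunctionFieldFull N) n :=
  descModular N ι n hn
    (Fermat.Agent.P5.Kappa.finite_torsion_realC' N (Nat.pos_of_ne_zero hn))

/-- The same statement, unfolded: every `f ∈ K_C^×` with `n ∣ ord_P f` at all places `P` of
`K_C` is `c · ι(f₀) · h ^ n` with `c ∈ ℂ^×`, `h ∈ K_C^×`, `f₀ ∈ F_N^×` and `n ∣ ord_p f₀` at all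
places `p` of `F_N`. -/
theorem descFinal' (N : ℕ) [NeZero N] (ι : AlgebraicClosure ℚ →+* ℂ) (n : ℕ) (hn : n ≠ 0)
    (f : laurentBaseChange ℂ (modularFunctionFieldFull N)) (hf : f ≠ 0)
    (hdiv : ∀ P : Place ℂ (laurentBaseChange ℂ (modularFunctionFieldFull N)), (n : ℤ) ∣ P.ord f) :
    ∃ (c : ℂ) (f₀ : modularFunctionFieldBar N)
      (h : laurentBaseChange ℂ (modularFunctionFieldFull N)),
      c ≠ 0 ∧ f₀ ≠ 0 ∧ h ≠ 0 ∧
      f = algebraMap ℂ (laurentBaseChange ℂ (modularFunctionFieldFull N)) c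
        * baseMap ι (modularFunctionFieldFull N) f₀ * h ^ n ∧
      ∀ p : Place (AlgebraicClosure ℚ) (modularFunctionFieldBar N), (n : ℤ) ∣ p.ord f₀ :=
  descFinal N ι n hn f hf hdiv

end Fermat.Agent.P5.Desc
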